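/-
Program A (S42 / S29), skeleton leaf 6 of `Fermat.Agent.S42.H96.Skeleton`:

  `leafAN1 : LeafAN1 N p`  — if `p ∣ v.ord g` at every place `v` of `M_ℂ = ℂ(j_d : d ∣ N)` at
  which `j` is regular, then the class of `g` has a root datum `HasRootC N p ψ g` for SOME
  homomorphism `ψ : Γ₀(N) → ℤ/p`.

Pure adapter on landed files:
* `H37.exists_rep`, `H37.dvd_analyticOrder_of_dvd_ord`  (places `V_z` ⟹ analytic orders);
* `H85.exists_isRootChar`  (ROOT + character: a meromorphic normal-form `p`-th root `g₀` of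
  `Θ_ℂ(A) / Θ_ℂ(B)` with a character `χ` of exponent `p`);
* the holomorphic root `G := NF(g₀ · Θ_ℂ(B))` of `Θ_ℂ(A · B ^ (p - 1))`;
* `χ = ζ_p ^ ψ` (discrete logarithm in base `zetaP p`).
(helper5)
-/
import Fermat.Agent.S42.H96.Skeleton
import Fermat.Agent.S29.H85.RootCalc
import Fermat.Agent.S29.H37.PlacesC

set_option autoImplicit false

open UpperHalfPlane ModularCurve ModularCurve.Period CongruenceSubgroup AlgebraicCurve
open Filter Topology Set
open scoped MatrixGroups Manifold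

noncomputable section

namespace Fermat.Agent.S42.H5

open Fermat.Agent.S24 Fermat.Agent.S29.H37 Fermat.Agent.S29.H85

/-! ### A character of exponent `p` is `ζ_p ^ ψ` -/

/-- Every character `χ : Γ → ℂˣ` of exponent `p ≠ 0` is `ζ_p ^ ψ` for a homomorphism
`ψ : Γ → ℤ/p`. -/
theorem exists_hom_of_char {Γ : Type*} [Group Γ] {p : ℕ} (hp : p ≠ 0) (χ : Γ →* ℂˣ)
    (hχ : ∀ γ, χ γ ^ p = 1) :
    ∃ ψ : Additive Γ →+ ZMod p, ∀ γ : Γ,
      H96.zetaP p ^ (ψ (Additive.ofMul γ)).val = ((χ γ : ℂˣ) : ℂ) := by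
  have hne : NeZero p := ⟨hp⟩
  have hprim : IsPrimitiveRoot (H96.zetaP p) p := Complex.isPrimitiveRoot_exp p hp
  set ζ : ℂˣ := (hprim.isUnit hp).unit with hζ
  have hζu : IsPrimitiveRoot ζ p := hprim.isUnit_unit hp
  have hζc : ((ζ : ℂˣ) : ℂ) = H96.zetaP p := rfl
  have hmem : ∀ γ, χ γ ∈ Subgroup.zpowers ζ := by
    intro γ
    rw [hζu.zpowers_eq]
    exact (mem_rootsOfUnity _ _).2 (hχ γ)
  let χ' : Γ →* Subgroup.zpowers ζ := χ.codRestrict _ hmem
  let ψ : Additive Γ →+ ZMod p :=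
    (hζu.zmodEquivZPowers.symm : Additive (Subgroup.zpowers ζ) →+ ZMod p).comp
      (MonoidHom.toAdditive χ')
  refine ⟨ψ, fun γ => ?_⟩
  have h1 : hζu.zmodEquivZPowers (ψ (Additive.ofMul γ)) = Additive.ofMul (χ' γ) := by
    show hζu.zmodEquivZPowers (hζu.zmodEquivZPowers.symm (Additive.ofMul (χ' γ))) = _
    rw [AddEquiv.apply_symm_apply]
  have h2 : ((ψ (Additive.ofMul γ)).val : ZMod p) = ψ (Additive.ofMul γ) :=
    ZMod.natCast_zmod_val _
  rw [← h2, hζu.zmodEquivZPowers_apply_coe_nat] at h1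
  have h3 : ζ ^ (ψ (Additive.ofMul γ)).val = χ γ := by
    have := congrArg (fun x : Additive (Subgroup.zpowers ζ) =>
      ((Additive.toMul x : Subgroup.zpowers ζ) : ℂˣ)) h1
    have h4 : ((χ' γ : Subgroup.zpowers ζ) : ℂˣ) = χ γ := rfl
    rw [← h4]
    simpa using this
  rw [← hζc, ← Units.val_pow_eq_pow_val, h3]

/-! ### From places to analytic orders -/

/-- `PC` gives `AnDiv` (the easy direction of the place dictionary). -/
theorem anDiv_of_forall_place {N p : ℕ} [NeZero N] {u : FC N} (hu : u ≠ 0)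
    (h : ∀ v : Place ℂ (FC N), jC N ∈ v.toValuationSubring → (p : ℤ) ∣ v.ord u) :
    AnDiv N p u := by
  obtain ⟨A, B, hB, hAB⟩ := exists_rep N u
  have hB' : evFC N B ≠ 0 := (ThetaC_ne_zero_iff N B).1 hB
  have hA : evFC N A ≠ 0 := by
    rw [← hAB]
    exact mul_ne_zero hu hB'
  refine ⟨A, B, hB, hAB, fun z hz => ?_⟩
  obtain ⟨n, m, hn, hm, ⟨k, hk⟩⟩ := dvd_analyticOrder_of_dvd_ord N h hA hB' hAB ⟨z, hz⟩
  have hAan : AnalyticAt ℂ (ThetaC N A ∘ ofComplex) z :=
    analyticOnNhd_comp_ofComplex (mdiff_ThetaC N A) z hz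
  have hBan : AnalyticAt ℂ (ThetaC N B ∘ ofComplex) z :=
    analyticOnNhd_comp_ofComplex (mdiff_ThetaC N B) z hz
  have hq : quotFun N A B = (ThetaC N A ∘ ofComplex) / (ThetaC N B ∘ ofComplex) := rfl
  refine ⟨k, ?_⟩
  rw [hq, meromorphicOrderAt_div hAan.meromorphicAt hBan.meromorphicAt,
    hAan.meromorphicOrderAt_eq, hBan.meromorphicOrderAt_eq]
  have hn' : analyticOrderAt (ThetaC N A ∘ ofComplex) z = n := hn
  have hm' : analyticOrderAt (ThetaC N B ∘ ofComplex) z = m := hm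
  rw [hn', hm', ENat.map_natCast, ENat.map_natCast, ← hk]
  norm_cast

/-! ### The holomorphic root -/

/-- From a meromorphic root with character of `Θ_ℂ(A) / Θ_ℂ(B)` to a HOLOMORPHIC root with the
same character of `Θ_ℂ(A · B ^ k)`, `p = k + 1`. -/
theorem exists_holo_root {N : ℕ} [NeZero N] {k : ℕ} {u : FC N} {χ : Gamma0 N →* ℂˣ}
    (h : IsRootChar N (k + 1) u χ) :
    ∃ (A B : MvPolynomial (N.divisors) ℂ) (G : ℍ → ℂ), ThetaC N B ≠ 0 ∧
      u * evFC N B = evFC N A ∧ MDiff G ∧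
      (∀ τ : ℍ, G τ ^ (k + 1) = ThetaC N (A * B ^ k) τ) ∧
      ∀ (γ : Gamma0 N) (τ : ℍ), G ((γ : SL(2, ℤ)) • τ) = ((χ γ : ℂˣ) : ℂ) * G τ := by
  obtain ⟨A, B, g, hB, hAB, hg, hgp, hgχ⟩ := h
  set q2 : ℂ → ℂ := fun z => g z * ThetaC N B (ofComplex z) with hq2
  have hban := analyticOnNhd_comp_ofComplex (mdiff_ThetaC N B)
  have hq2mer : MeromorphicOn q2 UH := fun z hz =>
    (hg hz).meromorphicAt.mul (hban z hz).meromorphicAt
  set M := toMeromorphicNFOn q2 UH with hM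
  have hMNF : MeromorphicNFOn M UH := meromorphicNFOn_toMeromorphicNFOn _ _
  have hc0an := analyticOnNhd_comp_ofComplex (mdiff_ThetaC N (A * B ^ k))
  -- `M ^ p = Θ(A * B ^ k)` off a discrete set
  have hMpow : ∀ z ∈ UH, (fun y => M y ^ (k + 1)) =ᶠ[𝓝[≠] z]
      (fun y => ThetaC N (A * B ^ k) (ofComplex y)) := by
    intro z hz
    filter_upwards [hq2mer.toMeromorphicNFOn_eq_self_on_nhdsNE hz, hgp z hz,
      eventually_ne_zero_of_mdiff (mdiff_ThetaC N B) hB hz] with y hy1 hy3 hyB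
    have e1 : M y = g y * ThetaC N B (ofComplex y) := hy1
    have e2 : ThetaC N (A * B ^ k) (ofComplex y) =
        ThetaC N A (ofComplex y) * ThetaC N B (ofComplex y) ^ k := by
      rw [map_mul, map_pow]
      rfl
    show M y ^ (k + 1) = ThetaC N (A * B ^ k) (ofComplex y)
    rw [e1, e2, mul_pow, hy3]
    unfold quotFun
    field_simp
    ring
  -- `M` is analytic on `UH`
  have hMan : ∀ z ∈ UH, AnalyticAt ℂ M z := by
    intro z hz
    apply (hMNF hz).meromorphicOrderAt_nonneg_iff_analyticAt.1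
    have h1 := meromorphicOrderAt_congr (hMpow z hz)
    have h2 : (0 : WithTop ℤ) ≤ meromorphicOrderAt
        (fun y => ThetaC N (A * B ^ k) (ofComplex y)) z :=
      (hc0an z hz).meromorphicOrderAt_nonneg
    have h3 : meromorphicOrderAt (M ^ (k + 1)) z =
        ((k + 1 : ℕ) : WithTop ℤ) * meromorphicOrderAt M z :=
      meromorphicOrderAt_pow (hMNF hz).meromorphicAt
    have h4 : (M ^ (k + 1)) = fun y => M y ^ (k + 1) := rfl
    rw [h4, h1] at h3
    rw [h3] at h2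
    by_cases htop : meromorphicOrderAt M z = ⊤
    · rw [htop]
      exact le_top
    · lift meromorphicOrderAt M z to ℤ using htop with n hn
      have h5 : (0 : ℤ) ≤ ((k + 1 : ℕ) : ℤ) * n := by exact_mod_cast h2
      have h6 : (0 : ℤ) ≤ n := by
        by_contra hneg
        push Not at hneg
        have : (0 : ℤ) < ((k + 1 : ℕ) : ℤ) := by positivity
        nlinarith
      exact_mod_cast h6
  -- pointwise identity
  have hMpt : ∀ z ∈ UH, M z ^ (k + 1) = ThetaC N (A * B ^ k) (ofComplex z) := by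
    intro z hz
    have hc1 : ContinuousAt (fun y => M y ^ (k + 1)) z := ((hMan z hz).continuousAt).pow _
    have hc2 : ContinuousAt (fun y => ThetaC N (A * B ^ k) (ofComplex y)) z :=
      (hc0an z hz).continuousAt
    exact ((hc1.eventuallyEq_nhds_iff_eventuallyEq_nhdsNE hc2).1 (hMpow z hz)).eq_of_nhds
  -- the holomorphic function `G` on `ℍ`
  set G : ℍ → ℂ := fun τ => M (τ : ℂ) with hG
  have hGmd : MDiff G := by
    rw [UpperHalfPlane.mdifferentiable_iff]
    intro z hz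
    have h1 : DifferentiableWithinAt ℂ M {z | 0 < z.im} z :=
      (hMan z hz).differentiableAt.differentiableWithinAt
    refine h1.congr (fun y hy => ?_) ?_
    · simp only [Function.comp_apply, hG]
      rw [coe_ofComplex hy]
    · simp only [Function.comp_apply, hG]
      rw [coe_ofComplex hz]
  have hq2χ : ∀ (γ : Gamma0 N), ∀ z ∈ UH,
      q2 (moeb (γ : SL(2, ℤ)) z) = ((χ γ : ℂˣ) : ℂ) * q2 z := by
    intro γ z hz
    simp only [hq2]
    rw [hgχ γ z hz, ofComplex_moeb _ hz, ThetaC_smul_of_mem N γ.2, mul_assoc]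
  refine ⟨A, B, G, hB, hAB, hGmd, fun τ => ?_, fun γ τ => ?_⟩
  · have := hMpt (τ : ℂ) τ.im_pos
    rwa [ofComplex_apply] at this
  · simp only [hG]
    rw [coe_smul_eq_moeb]
    exact toNF_moeb_smul hq2mer (γ : SL(2, ℤ)) (χ γ).ne_zero (hq2χ γ) _ τ.im_pos

/-! ### The leaf -/

/-- **Skeleton leaf 6 (`LeafAN1`)**, for every level `N ≠ 0` and every exponent `p ≠ 0`. -/
theorem leafAN1 (N p : ℕ) [NeZero N] (hp : p ≠ 0) : H96.LeafAN1 N p := by
  intro g hg hPC
  obtain ⟨k, rfl⟩ : ∃ k, p = k + 1 := ⟨p - 1, by omega⟩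
  have hj : jC N = H96.jC N (oneDiv N) := by
    show evFC N (MvPolynomial.X (oneDiv N)) = _
    rw [evFC, MvPolynomial.aeval_X]
    rfl
  have hdiv : AnDiv N (k + 1) g :=
    anDiv_of_forall_place hg (fun v hv => hPC v (by rw [← hj]; exact hv))
  obtain ⟨χ, hχp, hroot⟩ := exists_isRootChar hp hg hdiv
  obtain ⟨A, B, G, hB, hAB, hG, hGp, hGχ⟩ := exists_holo_root hroot
  obtain ⟨ψ, hψ⟩ := exists_hom_of_char hp χ hχp
  refine ⟨ψ, A * B ^ k, B, G, (ThetaC_ne_zero_iff N B).1 hB, ?_, hG, hGp, fun γ τ => ?_⟩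
  · show g * evFC N B ^ (k + 1) = evFC N (A * B ^ k)
    rw [map_mul, map_pow, ← hAB]
    ring
  · rw [hGχ γ τ]
    show ((χ γ : ℂˣ) : ℂ) * G τ = H96.zetaP (k + 1) ^ (ψ (Additive.ofMul γ)).val * G τ
    rw [hψ γ]

end Fermat.Agent.S42.H5
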