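/-
Program A (S42 / S29), skeleton leaf 15 of `Fermat.Agent.S42.H96.Skeleton`:

  `leafORD : LeafORD N p`   — a holomorphic `p`-th root `G` of `Θ(C)` whose character `ζ_p ^ ψ`
  comes from `ψ ∈ Hp N p` (parabolic, killing the elements of finite order) forces
  `p ∣ v.ord (evF N C)` at EVERY place `v` of `F = ℚ̄(j_d : d ∣ N)` (cusps included).

Adapter to the landed `Fermat.Agent.S29.H5.ord_dvd_of_pow_m` (arbitrary exponent `m > 0`,
no primality, no coprimality with `6` or `N`).  Also `leafORD_pow` for a root with an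
arbitrary exponent and plain invariance hypotheses, and `hasChar_inv` (the character is
trivial on the kernel of `ψ`).
(helper5)
-/
import Fermat.Agent.S42.H96.Skeleton
import Fermat.Agent.S29.H5.OrdM

set_option autoImplicit false

open UpperHalfPlane ModularCurve ModularCurve.Period CongruenceSubgroup AlgebraicCurve
open scoped MatrixGroups Manifold

noncomputable section

namespace Fermat.Agent.S42.H5

open Fermat.Agent.S24 Fermat.Agent.S42.H96

/-- The character `ζ_p ^ ψ` is trivial where `ψ` vanishes. -/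
theorem chiOf_eq_one {N p : ℕ} (ψ : Additive (Gamma0 N) →+ ZMod p) (γ : Gamma0 N)
    (h : ψ (Additive.ofMul γ) = 0) : chiOf p ψ γ = 1 := by
  unfold chiOf
  rw [h]
  cases p <;> simp

/-- A function with character `ζ_p ^ ψ` is invariant under the kernel of `ψ`. -/
theorem hasChar_inv {N p : ℕ} {ψ : Additive (Gamma0 N) →+ ZMod p} {G : ℍ → ℂ}
    (hG : HasChar N p ψ G) (γ : SL(2, ℤ)) (hγ : γ ∈ Gamma0 N)
    (h : ψ (Additive.ofMul (⟨γ, hγ⟩ : Gamma0 N)) = 0) (τ : ℍ) : G (γ • τ) = G τ := by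
  have h1 := hG ⟨γ, hγ⟩ τ
  rw [chiOf_eq_one ψ _ h, one_mul] at h1
  exact h1

/-- **Skeleton leaf 15 (`LeafORD`)**, for every level `N ≠ 0` and every exponent `p ≠ 0`
(not necessarily prime). -/
theorem leafORD (N p : ℕ) [NeZero N] (hp : p ≠ 0) : LeafORD N p := by
  rintro ψ ⟨hpar, hfin⟩ C hC ⟨G, hG, hGp, hGc⟩ v
  refine Fermat.Agent.S29.H5.ord_dvd_of_pow_m N p (Nat.pos_of_ne_zero hp) C hC G hG hGp
    ?_ ?_ v
  · intro γ hγ htr τ
    exact hasChar_inv hGc γ hγ (hpar ⟨γ, hγ⟩ htr) τ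
  · intro γ hγ hfo τ
    refine hasChar_inv hGc γ hγ (hfin ⟨γ, hγ⟩ ?_) τ
    exact (Submonoid.isOfFinOrder_coe (H := (Gamma0 N).toSubmonoid) (x := ⟨γ, hγ⟩)).mp hfo

end Fermat.Agent.S42.H5
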